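import Mathlib

/-!
# S48 (IRR), group-theoretic part

A finite group `G` acting on `ℂ²` through `ι : G →* GL₂(ℂ)` with an invariant line `ℂ v`:
the trace is `χ + ψ` for two characters, hence `‖tr g‖ ≤ 2`, `‖tr g⁻¹‖ = ‖tr g‖` and
`∑_g ‖tr g‖² ≥ 2 |G|` (orthogonality of characters, `sum_hom_units`).
-/

set_option autoImplicit false
set_option linter.unusedSectionVars false

namespace Fermat.Agent.S48.Irr

open Matrix

/-- An eigenvalue of a `2 × 2` matrix is a root of `X² - tr X + det`. -/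
theorem eig_root (M : Matrix (Fin 2) (Fin 2) ℂ) (v : Fin 2 → ℂ) (hv : v ≠ 0) (c : ℂ)
    (h : M.mulVec v = c • v) : c ^ 2 - M.trace * c + M.det = 0 := by
  have h0 : (M - c • (1 : Matrix (Fin 2) (Fin 2) ℂ)).mulVec v = 0 := by
    rw [Matrix.sub_mulVec, h, Matrix.smul_mulVec, Matrix.one_mulVec, sub_self]
  have hdet : (M - c • (1 : Matrix (Fin 2) (Fin 2) ℂ)).det = 0 :=
    Matrix.exists_mulVec_eq_zero_iff.mp ⟨v, hv, h0⟩
  rw [Matrix.det_fin_two] at hdet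
  rw [Matrix.trace_fin_two, Matrix.det_fin_two]
  simp at hdet
  linear_combination hdet

section Group

variable {G : Type} [Group G] [Fintype G] (ι : G →* GL (Fin 2) ℂ) (v : Fin 2 → ℂ)
  (c : G → ℂ)

/-- the trace function -/
noncomputable def tr (g : G) : ℂ := ((ι g : GL (Fin 2) ℂ) : Matrix (Fin 2) (Fin 2) ℂ).trace

/-- the determinant function -/
noncomputable def dt (g : G) : ℂ := ((ι g : GL (Fin 2) ℂ) : Matrix (Fin 2) (Fin 2) ℂ).det

theorem dt_one : dt ι 1 = 1 := by simp [dt]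

theorem dt_mul (g h : G) : dt ι (g * h) = dt ι g * dt ι h := by simp [dt]

variable {ι v c}

theorem c_unique (hv : v ≠ 0) {a b : ℂ} (h : a • v = b • v) : a = b := by
  by_contra hab
  have : (a - b) • v = 0 := by rw [sub_smul, h, sub_self]
  rcases smul_eq_zero.mp this with h1 | h1
  · exact hab (sub_eq_zero.mp h1)
  · exact hv h1

theorem c_one (hv : v ≠ 0)
    (hc : ∀ g, ((ι g : GL (Fin 2) ℂ) : Matrix (Fin 2) (Fin 2) ℂ).mulVec v = c g • v) :
    c 1 = 1 := by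
  apply c_unique hv
  rw [← hc 1]
  simp

theorem c_mul (hv : v ≠ 0)
    (hc : ∀ g, ((ι g : GL (Fin 2) ℂ) : Matrix (Fin 2) (Fin 2) ℂ).mulVec v = c g • v)
    (g h : G) : c (g * h) = c g * c h := by
  apply c_unique hv
  rw [← hc (g * h), map_mul, Units.val_mul, ← Matrix.mulVec_mulVec, hc h, Matrix.mulVec_smul,
    hc g, smul_smul, mul_comm]

/-- `c` as a monoid homomorphism. -/
noncomputable def cHom (hv : v ≠ 0)
    (hc : ∀ g, ((ι g : GL (Fin 2) ℂ) : Matrix (Fin 2) (Fin 2) ℂ).mulVec v = c g • v) :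
    G →* ℂ where
  toFun := c
  map_one' := c_one hv hc
  map_mul' := c_mul hv hc

/-- `det` as a monoid homomorphism. -/
noncomputable def dHom (ι : G →* GL (Fin 2) ℂ) : G →* ℂ where
  toFun := dt ι
  map_one' := dt_one ι
  map_mul' := dt_mul ι

theorem norm_hom_eq_one (f : G →* ℂ) (g : G) : ‖f g‖ = 1 := by
  have h1 : f g ^ Fintype.card G = 1 := by
    rw [← map_pow, pow_card_eq_one, map_one]
  have h2 : ‖f g‖ ^ Fintype.card G = 1 := by
    rw [← norm_pow, h1, norm_one]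
  exact (pow_eq_one_iff_of_nonneg (norm_nonneg _) Fintype.card_ne_zero).mp h2

theorem hom_ne_zero (f : G →* ℂ) (g : G) : f g ≠ 0 := by
  intro h
  have := norm_hom_eq_one f g
  rw [h, norm_zero] at this
  exact zero_ne_one this

theorem hom_inv (f : G →* ℂ) (g : G) : f g⁻¹ = (f g)⁻¹ := by
  have h : f g⁻¹ * f g = 1 := by rw [← map_mul, inv_mul_cancel, map_one]
  exact eq_inv_of_mul_eq_one_left h

theorem hom_inv_conj (f : G →* ℂ) (g : G) : f g⁻¹ = (starRingEnd ℂ) (f g) := by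
  rw [hom_inv, Complex.inv_eq_conj (norm_hom_eq_one f g)]

theorem tr_eq (hv : v ≠ 0)
    (hc : ∀ g, ((ι g : GL (Fin 2) ℂ) : Matrix (Fin 2) (Fin 2) ℂ).mulVec v = c g • v)
    (g : G) : tr ι g = c g + dt ι g / c g := by
  have h := eig_root _ v hv (c g) (hc g)
  have hne : c g ≠ 0 := hom_ne_zero (cHom hv hc) g
  unfold tr dt
  field_simp
  linear_combination -h

theorem norm_tr_le (hv : v ≠ 0)
    (hc : ∀ g, ((ι g : GL (Fin 2) ℂ) : Matrix (Fin 2) (Fin 2) ℂ).mulVec v = c g • v)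
    (g : G) : ‖tr ι g‖ ≤ 2 := by
  rw [tr_eq hv hc]
  have h1 : ‖c g‖ = 1 := norm_hom_eq_one (cHom hv hc) g
  have h2 : ‖dt ι g‖ = 1 := norm_hom_eq_one (dHom ι) g
  calc ‖c g + dt ι g / c g‖ ≤ ‖c g‖ + ‖dt ι g / c g‖ := norm_add_le _ _
    _ = 2 := by rw [norm_div, h1, h2]; norm_num

theorem tr_inv (hv : v ≠ 0)
    (hc : ∀ g, ((ι g : GL (Fin 2) ℂ) : Matrix (Fin 2) (Fin 2) ℂ).mulVec v = c g • v)
    (g : G) : tr ι g⁻¹ = (starRingEnd ℂ) (tr ι g) := by
  rw [tr_eq hv hc, tr_eq hv hc, map_add, map_div₀]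
  have h1 : c g⁻¹ = (starRingEnd ℂ) (c g) := hom_inv_conj (cHom hv hc) g
  have h2 : dt ι g⁻¹ = (starRingEnd ℂ) (dt ι g) := hom_inv_conj (dHom ι) g
  rw [h1, h2]

theorem norm_tr_inv (hv : v ≠ 0)
    (hc : ∀ g, ((ι g : GL (Fin 2) ℂ) : Matrix (Fin 2) (Fin 2) ℂ).mulVec v = c g • v)
    (g : G) : ‖tr ι g⁻¹‖ = ‖tr ι g‖ := by
  rw [tr_inv hv hc, RCLike.norm_conj]

theorem tr_conj (ι : G →* GL (Fin 2) ℂ) (g h : G) : tr ι (h * g * h⁻¹) = tr ι g := by
  unfold tr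
  rw [map_mul, map_mul, Units.val_mul, Units.val_mul, Matrix.trace_mul_comm, ← Units.val_mul,
    ← Units.val_mul, ← map_mul, ← map_mul, ← mul_assoc, inv_mul_cancel, one_mul]

/-- the ratio character `θ = χ² / det` -/
noncomputable def thetaHom (hv : v ≠ 0)
    (hc : ∀ g, ((ι g : GL (Fin 2) ℂ) : Matrix (Fin 2) (Fin 2) ℂ).mulVec v = c g • v) :
    G →* ℂ where
  toFun g := c g ^ 2 / dt ι g
  map_one' := by rw [c_one hv hc, dt_one]; norm_num
  map_mul' g h := by rw [c_mul hv hc, dt_mul]; ring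

theorem normSq_tr (hv : v ≠ 0)
    (hc : ∀ g, ((ι g : GL (Fin 2) ℂ) : Matrix (Fin 2) (Fin 2) ℂ).mulVec v = c g • v)
    (g : G) : ((‖tr ι g‖ ^ 2 : ℝ) : ℂ) = 2 + thetaHom hv hc g + thetaHom hv hc g⁻¹ := by
  have h0 : ((‖tr ι g‖ ^ 2 : ℝ) : ℂ) = tr ι g * (starRingEnd ℂ) (tr ι g) := by
    rw [Complex.mul_conj, Complex.normSq_eq_norm_sq]
  rw [h0, ← tr_inv hv hc, tr_eq hv hc, tr_eq hv hc]
  have h1 : c g⁻¹ = (c g)⁻¹ := hom_inv (cHom hv hc) g
  have h2 : dt ι g⁻¹ = (dt ι g)⁻¹ := hom_inv (dHom ι) g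
  have hne : c g ≠ 0 := hom_ne_zero (cHom hv hc) g
  have hne' : dt ι g ≠ 0 := hom_ne_zero (dHom ι) g
  show _ = 2 + c g ^ 2 / dt ι g + c g⁻¹ ^ 2 / dt ι g⁻¹
  rw [h1, h2]
  field_simp
  ring

/-- **Orthogonality**: `∑_g ‖tr g‖² ≥ 2 |G|` when there is an invariant line. -/
theorem two_card_le_sum (hv : v ≠ 0)
    (hc : ∀ g, ((ι g : GL (Fin 2) ℂ) : Matrix (Fin 2) (Fin 2) ℂ).mulVec v = c g • v) :
    2 * (Fintype.card G : ℝ) ≤ ∑ g : G, ‖tr ι g‖ ^ 2 := by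
  classical
  have hsum : ((∑ g : G, ‖tr ι g‖ ^ 2 : ℝ) : ℂ)
      = 2 * (Fintype.card G : ℂ) + 2 * (if thetaHom hv hc = 1 then (Fintype.card G : ℂ) else 0) := by
    push_cast
    have : ∀ g : G, ((‖tr ι g‖ : ℂ)) ^ 2 = 2 + thetaHom hv hc g + thetaHom hv hc g⁻¹ := by
      intro g
      have := normSq_tr hv hc g
      push_cast at this
      exact this
    simp_rw [this]
    rw [Finset.sum_add_distrib, Finset.sum_add_distrib]
    have e1 : ∑ g : G, thetaHom hv hc g⁻¹ = ∑ g : G, thetaHom hv hc g :=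
      Fintype.sum_equiv (Equiv.inv G) _ _ (fun g => rfl)
    rw [e1, sum_hom_units]
    simp only [Finset.sum_const, Finset.card_univ, nsmul_eq_mul]
    split_ifs <;> push_cast <;> ring
  have hre := congrArg Complex.re hsum
  rw [Complex.ofReal_re] at hre
  rw [hre]
  split_ifs
  · simp only [Complex.add_re, Complex.mul_re, Complex.re_ofNat, Complex.natCast_re,
      Complex.im_ofNat, Complex.natCast_im, mul_zero, sub_zero]
    have : (0 : ℝ) ≤ Fintype.card G := Nat.cast_nonneg _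
    linarith
  · simp

end Group

end Fermat.Agent.S48.Irr
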