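import Mathlib
import Fermat.Agent.S48.Defs

/-!
# S48 (IRR), analytic part

The abstract contradiction: a finite group `G` with a class function `w ≥ 0` of mean `≥ 2`, whose
level sets have the Chebotarev lower density, against the sharp Rankin bound
`∑ a_p p^{-s} ≤ log (s/(s-1)) + C`.
-/

set_option autoImplicit false

namespace Fermat.Agent.S48.Irr

open Finset

/-- `p^{-s} ≤ 1`. -/
theorem rpow_neg_le_one (p : ℕ) (hp : 1 ≤ p) (s : ℝ) (hs : 0 ≤ s) : (p : ℝ) ^ (-s) ≤ 1 := by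
  apply Real.rpow_le_one_of_one_le_of_nonpos
  · exact_mod_cast hp
  · linarith

/-- dropping the primes dividing `N` costs at most `#divisors N`. -/
theorem sum_filter_ge (N : ℕ) (hN : N ≠ 0) (F : Finset ℕ) (hF : ∀ p ∈ F, p.Prime) (s : ℝ)
    (hs : 0 ≤ s) :
    ∑ p ∈ F, (p : ℝ) ^ (-s) - (N.divisors.card : ℝ)
      ≤ ∑ p ∈ F.filter (fun p => ¬ p ∣ N), (p : ℝ) ^ (-s) := by
  classical
  have h1 := Finset.sum_filter_add_sum_filter_not F (fun p => ¬ p ∣ N) (fun p => (p : ℝ) ^ (-s))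
  have h2 : ∑ p ∈ F.filter (fun p => ¬ ¬ p ∣ N), (p : ℝ) ^ (-s) ≤ (N.divisors.card : ℝ) := by
    calc ∑ p ∈ F.filter (fun p => ¬ ¬ p ∣ N), (p : ℝ) ^ (-s)
        ≤ ∑ p ∈ F.filter (fun p => ¬ ¬ p ∣ N), (1 : ℝ) := by
          apply Finset.sum_le_sum
          intro p hp
          exact rpow_neg_le_one p (hF p (Finset.mem_filter.mp hp).1).one_lt.le s hs
      _ = ((F.filter (fun p => ¬ ¬ p ∣ N)).card : ℝ) := by simp
      _ ≤ (N.divisors.card : ℝ) := by
          have : F.filter (fun p => ¬ ¬ p ∣ N) ⊆ N.divisors := by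
            intro p hp
            rw [Finset.mem_filter, not_not] at hp
            exact Nat.mem_divisors.mpr ⟨hp.2, hN⟩
          exact_mod_cast Finset.card_le_card this
  linarith

/-- the fibre count -/
theorem sum_eq_sum_fibre {G : Type} [Fintype G] (w : G → ℝ) :
    ∑ g, w g = ∑ c ∈ Finset.univ.image w, c * (Nat.card {g : G | w g = c} : ℝ) := by
  classical
  rw [Finset.sum_comp (fun x => x) w]
  apply Finset.sum_congr rfl
  intro c _
  have : Nat.card {g : G | w g = c} = (Finset.univ.filter (fun g => w g = c)).card := by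
    rw [Nat.card_eq_fintype_card, Fintype.card_subtype]
    rfl
  rw [this, nsmul_eq_mul, mul_comm]

/-- **The abstract contradiction.** -/
theorem density_contra {G : Type} [Fintype G] [Nonempty G] (w : G → ℝ) (hw0 : ∀ g, 0 ≤ w g)
    (hw4 : ∀ g, w g ≤ 4) (hsum : 2 * (Fintype.card G : ℝ) ≤ ∑ g, w g)
    (N : ℕ) (hN : N ≠ 0) (X : ℝ → Set ℕ) (a : ℕ → ℝ)
    (H1 : ∀ c, LowerLogDensityGE (X c) ((Nat.card {g : G | w g = c} : ℝ) / Nat.card G))
    (H2 : ∀ c, ∀ p ∈ X c, p.Prime → ¬ p ∣ N → a p = c)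
    (H3 : ∃ CR : ℝ, ∀ T : Finset ℕ, (∀ p ∈ T, p.Prime ∧ ¬ p ∣ N ∧ a p ≤ 4) → ∀ s : ℝ, 1 < s →
      ∑ p ∈ T, a p * ((p : ℝ) ^ s)⁻¹ ≤ Real.log (s / (s - 1)) + CR) : False := by
  classical
  set V : Finset ℝ := Finset.univ.image w with hVdef
  have hV : V.Nonempty := Finset.image_nonempty.mpr Finset.univ_nonempty
  have hV0 : ∀ c ∈ V, 0 ≤ c := by
    intro c hc
    obtain ⟨g, -, rfl⟩ := Finset.mem_image.mp hc
    exact hw0 g
  have hV4 : ∀ c ∈ V, c ≤ 4 := by
    intro c hc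
    obtain ⟨g, -, rfl⟩ := Finset.mem_image.mp hc
    exact hw4 g
  set S : ℝ := ∑ c ∈ V, c with hSdef
  have hS0 : 0 ≤ S := Finset.sum_nonneg hV0
  set ε : ℝ := 1 / (2 * (S + 1)) with hεdef
  have hε : 0 < ε := by positivity
  have hεS : ε * S ≤ 1 / 2 := by
    rw [hεdef, div_mul_eq_mul_div, one_mul, div_le_iff₀ (by positivity)]
    linarith
  choose Cst s₀ hs₀ hF using fun c => H1 c ε hε
  obtain ⟨CR, hCR⟩ := H3
  set D : ℝ := (N.divisors.card : ℝ) with hDdef
  set K₁ : ℝ := ∑ c ∈ V, c * (Cst c + D) with hK₁def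
  have hcardG : (0 : ℝ) < Fintype.card G := by exact_mod_cast Fintype.card_pos
  -- the mean of `w`
  have hmean : 2 ≤ ∑ c ∈ V, c * ((Nat.card {g : G | w g = c} : ℝ) / Nat.card G) := by
    have h1 : ∑ c ∈ V, c * ((Nat.card {g : G | w g = c} : ℝ) / Nat.card G)
        = (∑ g, w g) / Fintype.card G := by
      rw [sum_eq_sum_fibre w, Finset.sum_div, Nat.card_eq_fintype_card]
      apply Finset.sum_congr rfl
      intro c _
      rw [mul_div_assoc]
    rw [h1, le_div_iff₀ hcardG]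
    exact hsum
  -- the key inequality
  have key : ∀ s : ℝ, 1 < s → s < 2 → (∀ c ∈ V, s < s₀ c) →
      Real.log (1 / (s - 1)) ≤ 2 * (K₁ + Real.log 2 + CR) := by
    intro s hs1 hs2 hlt
    set L : ℝ := Real.log (1 / (s - 1)) with hLdef
    have hL0 : 0 ≤ L := by
      apply Real.log_nonneg
      rw [le_div_iff₀ (by linarith)]
      linarith
    have hex : ∀ c : ℝ, ∃ F : Finset ℕ, c ∈ V → ((∀ p ∈ F, p.Prime ∧ p ∈ X c) ∧
        ((Nat.card {g : G | w g = c} : ℝ) / Nat.card G - ε) * L - Cst c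
          ≤ ∑ p ∈ F, (p : ℝ) ^ (-s)) := by
      intro c
      by_cases hc : c ∈ V
      · obtain ⟨F, hF1, hF2⟩ := hF c s hs1 (hlt c hc)
        exact ⟨F, fun _ => ⟨hF1, hF2⟩⟩
      · exact ⟨∅, fun h => absurd h hc⟩
    choose F hFp using hex
    set F' : ℝ → Finset ℕ := fun c => (F c).filter (fun p => ¬ p ∣ N) with hF'def
    have hF'a : ∀ c ∈ V, ∀ p ∈ F' c, p.Prime ∧ ¬ p ∣ N ∧ a p = c := by
      intro c hc p hp
      rw [hF'def, Finset.mem_filter] at hp
      have h1 := (hFp c hc).1 p hp.1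
      exact ⟨h1.1, hp.2, H2 c p h1.2 h1.1 hp.2⟩
    set T : Finset ℕ := V.biUnion F' with hTdef
    have hT : ∀ p ∈ T, p.Prime ∧ ¬ p ∣ N ∧ a p ≤ 4 := by
      intro p hp
      obtain ⟨c, hc, hpc⟩ := Finset.mem_biUnion.mp hp
      obtain ⟨h1, h2, h3⟩ := hF'a c hc p hpc
      exact ⟨h1, h2, h3 ▸ hV4 c hc⟩
    have hdisj : (V : Set ℝ).PairwiseDisjoint F' := by
      intro c hc c' hc' hne
      rw [Function.onFun, Finset.disjoint_left]
      intro p hp hp'
      exact hne ((hF'a c hc p hp).2.2.symm.trans (hF'a c' hc' p hp').2.2)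
    have hsumT : ∑ p ∈ T, a p * ((p : ℝ) ^ s)⁻¹
        = ∑ c ∈ V, c * ∑ p ∈ F' c, (p : ℝ) ^ (-s) := by
      rw [hTdef, Finset.sum_biUnion hdisj]
      apply Finset.sum_congr rfl
      intro c hc
      rw [Finset.mul_sum]
      apply Finset.sum_congr rfl
      intro p hp
      rw [(hF'a c hc p hp).2.2, Real.rpow_neg (Nat.cast_nonneg p)]
    have hlow : ∀ c ∈ V, c * (((Nat.card {g : G | w g = c} : ℝ) / Nat.card G - ε) * L
        - Cst c - D) ≤ c * ∑ p ∈ F' c, (p : ℝ) ^ (-s) := by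
      intro c hc
      apply mul_le_mul_of_nonneg_left _ (hV0 c hc)
      have h1 := sum_filter_ge N hN (F c) (fun p hp => ((hFp c hc).1 p hp).1) s (by linarith)
      have h2 := (hFp c hc).2
      have : ∑ p ∈ F c, (p : ℝ) ^ (-s) - D ≤ ∑ p ∈ F' c, (p : ℝ) ^ (-s) := h1
      linarith
    have hlow' : ∑ c ∈ V, c * (((Nat.card {g : G | w g = c} : ℝ) / Nat.card G - ε) * L
        - Cst c - D) ≤ ∑ p ∈ T, a p * ((p : ℝ) ^ s)⁻¹ := by
      rw [hsumT]
      exact Finset.sum_le_sum hlow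
    have hexpand : ∑ c ∈ V, c * (((Nat.card {g : G | w g = c} : ℝ) / Nat.card G - ε) * L
        - Cst c - D)
        = L * (∑ c ∈ V, c * ((Nat.card {g : G | w g = c} : ℝ) / Nat.card G)) - ε * S * L
          - K₁ := by
      rw [hSdef, hK₁def, Finset.mul_sum, Finset.mul_sum, Finset.sum_mul, ← Finset.sum_sub_distrib,
        ← Finset.sum_sub_distrib]
      apply Finset.sum_congr rfl
      intro c _
      ring
    have hR := hCR T hT s hs1
    have hlog : Real.log (s / (s - 1)) ≤ Real.log 2 + L := by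
      have hs0 : (0 : ℝ) < s := by linarith
      have hs10 : (0 : ℝ) < s - 1 := by linarith
      have : s / (s - 1) = s * (1 / (s - 1)) := by ring
      rw [this, Real.log_mul hs0.ne' (by positivity)]
      have : Real.log s ≤ Real.log 2 := Real.log_le_log hs0 hs2.le
      linarith
    have hm : 2 * L ≤ L * (∑ c ∈ V, c * ((Nat.card {g : G | w g = c} : ℝ) / Nat.card G)) := by
      rw [mul_comm 2 L]
      exact mul_le_mul_of_nonneg_left hmean hL0
    have hεL : ε * S * L ≤ 1 / 2 * L := mul_le_mul_of_nonneg_right hεS hL0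
    linarith
  -- choose `s`
  set B : ℝ := 2 * (K₁ + Real.log 2 + CR) with hBdef
  set s₁ : ℝ := min 2 (V.inf' hV s₀) with hs₁def
  have hs₁ : 1 < s₁ := by
    rw [hs₁def, lt_min_iff]
    refine ⟨by norm_num, ?_⟩
    rw [Finset.lt_inf'_iff]
    intro c _
    exact hs₀ c
  set δ : ℝ := min ((s₁ - 1) / 2) (Real.exp (-(B + 1))) with hδdef
  have hδ0 : 0 < δ := by
    rw [hδdef, lt_min_iff]
    exact ⟨by linarith, Real.exp_pos _⟩
  have hδ1 : δ ≤ (s₁ - 1) / 2 := min_le_left _ _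
  have hδ2 : δ ≤ Real.exp (-(B + 1)) := min_le_right _ _
  have hs_lt : 1 + δ < s₁ := by linarith
  have h2 : 1 + δ < 2 := lt_of_lt_of_le hs_lt (min_le_left _ _)
  have hV' : ∀ c ∈ V, 1 + δ < s₀ c := by
    intro c hc
    refine lt_of_lt_of_le hs_lt ((min_le_right _ _).trans ?_)
    exact Finset.inf'_le s₀ hc
  have hk := key (1 + δ) (by linarith) h2 hV'
  have hL : B + 1 ≤ Real.log (1 / (1 + δ - 1)) := by
    have : 1 + δ - 1 = δ := by ring
    rw [this, one_div, Real.log_inv]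
    have := Real.log_le_log hδ0 hδ2
    rw [Real.log_exp] at this
    linarith
  linarith

end Fermat.Agent.S48.Irr
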